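import Mathlib.Analysis.SpecialFunctions.Integrals.Basic
import Mathlib.Analysis.SpecialFunctions.Complex.Analytic
import Mathlib.Topology.ContinuousMap.Weierstrass
import Mathlib.LinearAlgebra.Finsupp.LinearCombination
import Mathlib.Analysis.Calculus.MeanValue
import Mathlib.Analysis.Complex.Convex
import Mathlib.MeasureTheory.Integral.Bochner.ContinuousLinearMap

/-!
# Trigonometric polynomials with negative frequencies

For a trigonometric polynomial `f` a polynomial `g` with frequencies `≤ 0` whose real part is at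
least `|f|` and whose mean square is not much more; `exp (-g)` has no positive frequencies.
-/

set_option autoImplicit false

noncomputable section

namespace FA.LittlewoodNorm

open MeasureTheory Finset Complex
open scoped Real ComplexConjugate

/-- `e k t = exp (2 π i k t)`. -/
def wave (k : ℤ) (t : ℝ) : ℂ := Complex.exp (((2 * π * k * t : ℝ) : ℂ) * I)

theorem wave_mul (k l : ℤ) (t : ℝ) : wave k t * wave l t = wave (k + l) t := by
  rw [wave, wave, wave, ← Complex.exp_add, ← add_mul, ← Complex.ofReal_add]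
  push_cast
  ring_nf

theorem wave_zero (t : ℝ) : wave 0 t = 1 := by simp [wave]

theorem conj_wave (k : ℤ) (t : ℝ) : conj (wave k t) = wave (-k) t := by
  rw [wave, wave, ← Complex.exp_conj, map_mul, Complex.conj_ofReal, Complex.conj_I]
  push_cast
  ring_nf

theorem norm_wave (k : ℤ) (t : ℝ) : ‖wave k t‖ = 1 := Complex.norm_exp_ofReal_mul_I _

@[fun_prop]
theorem continuous_wave (k : ℤ) : Continuous (wave k) := by
  unfold wave
  fun_prop

/-- The `k`th coefficient on `[0, 1]`. -/
def coef (F : ℝ → ℂ) (k : ℤ) : ℂ := ∫ t in (0 : ℝ)..1, F t * wave (-k) t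

theorem integral_wave (k : ℤ) : ∫ t in (0 : ℝ)..1, wave k t = if k = 0 then 1 else 0 := by
  split_ifs with h
  · simp [h, wave_zero]
  have hc : (2 * π * k : ℝ) * I ≠ 0 :=
    mul_ne_zero (Complex.ofReal_ne_zero.2 (mul_ne_zero (by positivity) (Int.cast_ne_zero.2 h)))
      I_ne_zero
  have e : ∀ t : ℝ, wave k t = Complex.exp ((2 * π * k : ℝ) * I * t) := fun t => by
    rw [wave]
    push_cast
    ring_nf
  simp only [e]
  rw [integral_exp_mul_complex hc]
  have h1 : Complex.exp ((2 * π * k : ℝ) * I * (1 : ℝ)) = 1 := by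
    rw [← Complex.exp_int_mul_two_pi_mul_I k]
    push_cast
    ring_nf
  rw [h1]
  simp

theorem coef_sum {ι : Type*} (s : Finset ι) (F : ι → ℝ → ℂ) (hF : ∀ i ∈ s, Continuous (F i))
    (k : ℤ) : coef (fun t => ∑ i ∈ s, F i t) k = ∑ i ∈ s, coef (F i) k := by
  simp only [coef, sum_mul]
  refine intervalIntegral.integral_finsetSum fun i hi => ?_
  exact ((hF i hi).mul (continuous_wave _)).intervalIntegrable _ _

theorem coef_const_mul_wave (c : ℂ) (n k : ℤ) :
    coef (fun t => c * wave n t) k = if n = k then c else 0 := by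
  simp only [coef, mul_assoc, wave_mul, intervalIntegral.integral_const_mul, integral_wave,
    add_neg_eq_zero, mul_ite, mul_one, mul_zero]

theorem coef_poly {ι : Type*} (s : Finset ι) (c : ι → ℂ) (n : ι → ℤ) (k : ℤ) :
    coef (fun t => ∑ i ∈ s, c i * wave (n i) t) k = ∑ i ∈ s.filter (fun i => n i = k), c i := by
  rw [coef_sum s (fun i t => c i * wave (n i) t)
    (fun i _ => continuous_const.mul (continuous_wave _)), sum_filter]
  exact sum_congr rfl fun i _ => coef_const_mul_wave _ _ _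

/-- Parseval for a trigonometric polynomial. -/
theorem integral_norm_sq_poly {ι : Type*} (s : Finset ι) (c : ι → ℂ) (n : ι → ℤ)
    (hn : Set.InjOn n s) :
    ∫ t in (0 : ℝ)..1, ‖∑ i ∈ s, c i * wave (n i) t‖ ^ 2 = ∑ i ∈ s, ‖c i‖ ^ 2 := by
  obtain ⟨S, hS⟩ : ∃ S, S = fun t => ∑ i ∈ s, c i * wave (n i) t := ⟨_, rfl⟩
  have hcS : Continuous S := hS ▸ by fun_prop
  apply Complex.ofReal_injective
  rw [← intervalIntegral.integral_ofReal, Complex.ofReal_sum]
  calc ∫ t in (0 : ℝ)..1, ((‖∑ i ∈ s, c i * wave (n i) t‖ ^ 2 : ℝ) : ℂ)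
      = ∫ t in (0 : ℝ)..1, ∑ j ∈ s, conj (c j) * (S t * wave (-n j) t) := by
        refine intervalIntegral.integral_congr fun t _ => ?_
        rw [Complex.ofReal_pow, ← Complex.mul_conj', map_sum, hS, mul_sum]
        refine sum_congr rfl fun j _ => ?_
        rw [map_mul, conj_wave]
        ring
    _ = ∑ j ∈ s, conj (c j) * coef S (n j) := by
        rw [intervalIntegral.integral_finsetSum]
        · simp only [intervalIntegral.integral_const_mul, coef]
        · exact fun j _ => Continuous.intervalIntegrable (by fun_prop) _ _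
    _ = ∑ j ∈ s, ((‖c j‖ ^ 2 : ℝ) : ℂ) := by
        refine sum_congr rfl fun j hj => ?_
        have : coef S (n j) = c j := by
          rw [hS, coef_poly]
          exact sum_eq_single_of_mem j (mem_filter.2 ⟨hj, rfl⟩) fun i hi hij =>
            absurd (hn (mem_filter.1 hi).1 hj (mem_filter.1 hi).2) hij
        rw [this, Complex.ofReal_pow, ← Complex.conj_mul']

/-- Trigonometric polynomials. -/
def IsTrig (F : ℝ → ℂ) : Prop := F ∈ Submodule.span ℂ (Set.range wave)

theorem isTrig_wave (k : ℤ) : IsTrig (wave k) := Submodule.subset_span ⟨k, rfl⟩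

theorem IsTrig.mul {F G : ℝ → ℂ} (hF : IsTrig F) (hG : IsTrig G) : IsTrig (F * G) := by
  induction hF using Submodule.span_induction with
  | mem x hx =>
    obtain ⟨k, rfl⟩ := hx
    induction hG using Submodule.span_induction with
    | mem y hy =>
      obtain ⟨l, rfl⟩ := hy
      rw [show wave k * wave l = wave (k + l) from funext fun t => wave_mul k l t]
      exact isTrig_wave _
    | zero => rw [mul_zero]; exact Submodule.zero_mem _
    | add a b _ _ ha hb => rw [mul_add]; exact Submodule.add_mem _ ha hb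
    | smul r a _ ha => rw [mul_smul_comm]; exact Submodule.smul_mem _ r ha
  | zero => rw [zero_mul]; exact Submodule.zero_mem _
  | add a b _ _ ha hb => rw [add_mul]; exact Submodule.add_mem _ ha hb
  | smul r a _ ha => rw [smul_mul_assoc]; exact Submodule.smul_mem _ r ha

theorem IsTrig.pow {F : ℝ → ℂ} (hF : IsTrig F) : ∀ n : ℕ, IsTrig (F ^ n)
  | 0 => by
    rw [pow_zero, show (1 : ℝ → ℂ) = wave 0 from funext fun t => (wave_zero t).symm]
    exact isTrig_wave 0
  | n + 1 => pow_succ F n ▸ (IsTrig.pow hF n).mul hF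

/-- A trigonometric polynomial `P` that is real and within `δ` above `|f|`. -/
theorem exists_real_trig_ge {ι : Type*} (s : Finset ι) (c : ι → ℂ) (n : ι → ℤ) {δ : ℝ}
    (hδ : 0 < δ) : ∃ (T : Finset ℤ) (p : ℤ → ℂ), ∀ t : ℝ,
      (∑ k ∈ T, p k * wave k t).im = 0 ∧
      ‖∑ i ∈ s, c i * wave (n i) t‖ ≤ (∑ k ∈ T, p k * wave k t).re ∧
      (∑ k ∈ T, p k * wave k t).re ≤ ‖∑ i ∈ s, c i * wave (n i) t‖ + 2 * δ := by
  obtain ⟨B, hB⟩ : ∃ B, B = (∑ i ∈ s, ‖c i‖) ^ 2 := ⟨_, rfl⟩
  obtain ⟨q, hq⟩ := exists_polynomial_near_of_continuousOn 0 B Real.sqrt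
    Real.continuous_sqrt.continuousOn δ hδ
  obtain ⟨W, hW⟩ : ∃ W : ℝ → ℂ, W = (∑ i ∈ s, c i • wave (n i)) *
      ∑ i ∈ s, conj (c i) • wave (-n i) := ⟨_, rfl⟩
  have hWt : IsTrig W := hW ▸ IsTrig.mul
    (Submodule.sum_mem _ fun i _ => Submodule.smul_mem _ _ (isTrig_wave _))
    (Submodule.sum_mem _ fun i _ => Submodule.smul_mem _ _ (isTrig_wave _))
  have hP : IsTrig (∑ i ∈ range (q.natDegree + 1), ((q.coeff i : ℝ) : ℂ) • W ^ i +
      (δ : ℂ) • wave 0) :=
    Submodule.add_mem _ (Submodule.sum_mem _ fun i _ => Submodule.smul_mem _ _ (hWt.pow i))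
      (Submodule.smul_mem _ _ (isTrig_wave _))
  obtain ⟨p, hp⟩ := Finsupp.mem_span_range_iff_exists_finsupp.1 hP
  refine ⟨p.support, p, fun t => ?_⟩
  have e : ∑ k ∈ p.support, p k * wave k t =
      ((q.eval (‖∑ i ∈ s, c i * wave (n i) t‖ ^ 2) + δ : ℝ) : ℂ) := by
    have h := congrFun hp t
    simp only [Finsupp.sum, Finset.sum_apply, Pi.add_apply, Pi.smul_apply, Pi.pow_apply,
      smul_eq_mul, wave_zero, mul_one] at h
    rw [h, Polynomial.eval_eq_sum_range, hW]
    simp only [Pi.mul_apply, Finset.sum_apply, Pi.smul_apply, smul_eq_mul]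
    push_cast
    congr 1
    refine sum_congr rfl fun i _ => ?_
    rw [← Complex.mul_conj', map_sum]
    simp only [map_mul, conj_wave]
  rw [e, Complex.ofReal_re, Complex.ofReal_im]
  obtain ⟨x, hx⟩ : ∃ x, x = ‖∑ i ∈ s, c i * wave (n i) t‖ := ⟨_, rfl⟩
  rw [← hx]
  have hx0 : 0 ≤ x := hx ▸ norm_nonneg _
  have hxB : x ^ 2 ≤ B := by
    rw [hB, hx]
    refine pow_le_pow_left₀ (norm_nonneg _) ((norm_sum_le _ _).trans (le_of_eq ?_)) 2
    exact sum_congr rfl fun i _ => by rw [norm_mul, norm_wave, mul_one]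
  have h := abs_lt.1 (hq _ ⟨sq_nonneg x, hxB⟩)
  rw [Real.sqrt_sq hx0] at h
  exact ⟨rfl, by linarith, by linarith⟩

/-- **The analytic majorant.** -/
theorem exists_majorant {ι : Type*} (s : Finset ι) (c : ι → ℂ) (n : ι → ℤ) {δ : ℝ}
    (hδ : 0 < δ) : ∃ (T : Finset ℤ) (b : ℤ → ℂ), (∀ k ∈ T, k ≤ 0) ∧
      (∀ t : ℝ, ‖∑ i ∈ s, c i * wave (n i) t‖ ≤ (∑ k ∈ T, b k * wave k t).re) ∧
      ∫ t in (0 : ℝ)..1, ‖∑ k ∈ T, b k * wave k t‖ ^ 2 ≤
        4 * (∫ t in (0 : ℝ)..1, ‖∑ i ∈ s, c i * wave (n i) t‖ ^ 2) + 16 * δ ^ 2 := by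
  obtain ⟨T₀, p₀, hP⟩ := exists_real_trig_ge s c n hδ
  obtain ⟨P, hPdef⟩ : ∃ P : ℝ → ℂ, P = fun t => ∑ k ∈ T₀, p₀ k * wave k t := ⟨_, rfl⟩
  obtain ⟨p, hpdef⟩ : ∃ p : ℤ → ℂ, p = coef P := ⟨_, rfl⟩
  have hreal : ∀ t, conj (P t) = P t := fun t => by
    rw [Complex.conj_eq_iff_im, hPdef]
    exact (hP t).1
  have hp : ∀ k, p k = if k ∈ T₀ then p₀ k else 0 := fun k => by
    rw [hpdef, hPdef, coef_poly, sum_filter, sum_ite_eq']
  have hsym : ∀ k, p (-k) = conj (p k) := fun k => by
    rw [hpdef, coef, coef, intervalIntegral.integral_of_le zero_le_one,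
      intervalIntegral.integral_of_le zero_le_one, ← integral_conj]
    refine integral_congr_ae (Filter.Eventually.of_forall fun t => ?_)
    dsimp only
    rw [map_mul, hreal, conj_wave]
  obtain ⟨N, hN⟩ : ∃ N, N = (T₀ ∪ T₀.image (fun k => -k)).filter (fun k => k < 0) := ⟨_, rfl⟩
  have hexp : ∀ t, P t = p 0 + ∑ k ∈ N, p k * wave k t + conj (∑ k ∈ N, p k * wave k t) :=
    fun t => by
    have h0 : P t = ∑ k ∈ (T₀ ∪ T₀.image (fun k => -k)) ∪ {0}, p k * wave k t := by
      rw [hPdef]
      dsimp only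
      refine (sum_congr rfl fun k hk => ?_).trans
        (sum_subset (subset_union_left.trans subset_union_left) fun k _ hk => ?_)
      · rw [hp, if_pos hk]
      · rw [hp, if_neg hk, zero_mul]
    have hsplit : (T₀ ∪ T₀.image (fun k => -k)) ∪ {0} = ({0} ∪ N) ∪ N.image (fun k => -k) := by
      ext k
      simp only [hN, mem_union, mem_image, mem_filter, mem_singleton]
      constructor
      · intro h
        rcases lt_trichotomy k 0 with hk | hk | hk
        · rcases h with h | h
          · exact Or.inl (Or.inr ⟨h, hk⟩)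
          · omega
        · exact Or.inl (Or.inl hk)
        · refine Or.inr ⟨-k, ⟨?_, by omega⟩, neg_neg k⟩
          rcases h with (h | ⟨a, ha, rfl⟩) | h
          · exact Or.inr ⟨k, h, rfl⟩
          · exact Or.inl ((neg_neg a).symm ▸ ha)
          · omega
      · rintro ((h | ⟨h, -⟩) | ⟨a, ⟨h | ⟨b, hb, rfl⟩, -⟩, rfl⟩)
        · exact Or.inr h
        · exact Or.inl h
        · exact Or.inl (Or.inr ⟨a, h, rfl⟩)
        · exact Or.inl (Or.inl ((neg_neg b).symm ▸ hb))
    rw [h0, hsplit, sum_union, sum_union, sum_singleton, wave_zero, mul_one, sum_image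
      (fun a _ b _ h => neg_inj.1 h), map_sum]
    · congr 1
      refine sum_congr rfl fun k _ => ?_
      rw [hsym, map_mul, conj_wave]
    · simp only [disjoint_singleton_left, hN, mem_filter]
      omega
    · refine disjoint_left.2 fun k hk hk' => ?_
      simp only [hN, mem_union, mem_image, mem_filter, mem_singleton] at hk hk'
      omega
  have hp0 : (p 0).im = 0 := by
    have h := hsym 0
    rw [neg_zero] at h
    exact Complex.conj_eq_iff_im.1 h.symm
  obtain ⟨b, hb⟩ : ∃ b : ℤ → ℂ, b = fun k => if k = 0 then p 0 else 2 * p k := ⟨_, rfl⟩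
  have hN0 : (0 : ℤ) ∉ N := by simp [hN]
  have hg : ∀ t, ∑ k ∈ insert 0 N, b k * wave k t = p 0 + 2 * ∑ k ∈ N, p k * wave k t := fun t => by
    rw [sum_insert hN0, hb, mul_sum]
    dsimp only
    rw [if_pos rfl, wave_zero, mul_one]
    refine congr_arg _ (sum_congr rfl fun k hk => ?_)
    rw [if_neg (ne_of_mem_of_not_mem hk hN0), mul_assoc]
  refine ⟨insert 0 N, b, fun k hk => ?_, fun t => ?_, ?_⟩
  · rcases mem_insert.1 hk with rfl | hk
    · exact le_rfl
    · exact ((mem_filter.1 (hN ▸ hk)).2).le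
  · refine (hP t).2.1.trans (le_of_eq ?_)
    rw [show (∑ k ∈ T₀, p₀ k * wave k t) = P t by rw [hPdef], hexp, hg]
    simp only [Complex.add_re, Complex.conj_re, Complex.mul_re, Complex.re_ofNat,
      Complex.im_ofNat, zero_mul, sub_zero]
    ring
  have hPN : ∫ t in (0 : ℝ)..1, ‖∑ k ∈ insert 0 N, b k * wave k t‖ ^ 2 ≤
      2 * ∫ t in (0 : ℝ)..1, ‖P t‖ ^ 2 := by
    rw [integral_norm_sq_poly _ b (fun k => k) Function.injective_id.injOn, sum_insert hN0]
    have e : ∀ t, P t = ∑ k ∈ (insert 0 N) ∪ N.image (fun k => -k), p k * wave k t := fun t => by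
      rw [sum_union, sum_insert hN0, sum_image (fun a _ b _ h => neg_inj.1 h), hexp, map_sum,
        wave_zero, mul_one]
      · congr 1
        exact sum_congr rfl fun k _ => by rw [hsym, map_mul, conj_wave]
      · refine disjoint_left.2 fun k hk hk' => ?_
        simp only [hN, mem_insert, mem_image, mem_filter] at hk hk'
        omega
    simp only [e]
    rw [integral_norm_sq_poly _ p (fun k => k) Function.injective_id.injOn, sum_union,
      sum_insert hN0, sum_image (fun a _ b _ h => neg_inj.1 h)]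
    · simp only [hsym, Complex.norm_conj, hb, if_pos rfl]
      have : ∑ k ∈ N, ‖if k = 0 then p 0 else 2 * p k‖ ^ 2 = 4 * ∑ k ∈ N, ‖p k‖ ^ 2 := by
        rw [mul_sum]
        refine sum_congr rfl fun k hk => ?_
        rw [if_neg (ne_of_mem_of_not_mem hk hN0), norm_mul, RCLike.norm_ofNat]
        ring
      rw [this]
      nlinarith [sq_nonneg ‖p 0‖]
    · refine disjoint_left.2 fun k hk hk' => ?_
      simp only [hN, mem_insert, mem_image, mem_filter] at hk hk'
      omega
  refine hPN.trans ?_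
  obtain ⟨f, hf⟩ : ∃ f : ℝ → ℂ, f = fun t => ∑ i ∈ s, c i * wave (n i) t := ⟨_, rfl⟩
  have hfc : Continuous f := hf ▸ by fun_prop
  have hPc : Continuous P := hPdef ▸ by fun_prop
  have hle : ∀ t, ‖P t‖ ^ 2 ≤ 2 * ‖f t‖ ^ 2 + 8 * δ ^ 2 := fun t => by
    obtain ⟨h1, h2, h3⟩ := hP t
    rw [show (∑ k ∈ T₀, p₀ k * wave k t) = P t by rw [hPdef]] at h1 h2 h3
    rw [show (∑ i ∈ s, c i * wave (n i) t) = f t by rw [hf]] at h2 h3
    rw [← Complex.normSq_eq_norm_sq (P t), Complex.normSq_apply, h1]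
    nlinarith [norm_nonneg (f t), sq_nonneg (‖f t‖ - 2 * δ)]
  have h : ∫ t in (0 : ℝ)..1, ‖P t‖ ^ 2 ≤ ∫ t in (0 : ℝ)..1, (2 * ‖f t‖ ^ 2 + 8 * δ ^ 2) :=
    intervalIntegral.integral_mono zero_le_one (Continuous.intervalIntegrable (by fun_prop) _ _)
      (Continuous.intervalIntegrable (by fun_prop) _ _) hle
  rw [intervalIntegral.integral_add (Continuous.intervalIntegrable (by fun_prop) _ _)
    intervalIntegrable_const, intervalIntegral.integral_const_mul,
    intervalIntegral.integral_const, sub_zero, one_smul] at h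
  rw [hf] at h
  linarith

/-- A polynomial with frequencies `≤ 0` has no effect on negative ones: all its powers. -/
theorem integral_wave_mul_pow {ι : Type*} {T : Finset ι} {b : ι → ℂ} {d : ι → ℤ}
    (hT : ∀ k ∈ T, d k ≤ 0) :
    ∀ (r : ℕ) (m : ℤ), m < 0 →
      ∫ t in (0 : ℝ)..1, wave m t * (∑ k ∈ T, b k * wave (d k) t) ^ r = 0 := by
  intro r
  induction r with
  | zero =>
    intro m hm
    simp only [pow_zero, mul_one, integral_wave, if_neg hm.ne]
  | succ r ih =>
    intro m hm
    have e : ∀ t : ℝ, wave m t * (∑ k ∈ T, b k * wave (d k) t) ^ (r + 1) =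
        ∑ k ∈ T, b k * (wave (m + d k) t * (∑ k ∈ T, b k * wave (d k) t) ^ r) := fun t => by
      rw [pow_succ', ← mul_assoc, mul_sum, sum_mul]
      refine sum_congr rfl fun k _ => ?_
      rw [← wave_mul]
      ring
    simp only [e]
    rw [intervalIntegral.integral_finsetSum fun k _ => by
      apply Continuous.intervalIntegrable; fun_prop]
    refine sum_eq_zero fun k hk => ?_
    rw [intervalIntegral.integral_const_mul, ih _ (by linarith [hT k hk]), mul_zero]

/-- **`exp` of such a polynomial has no positive frequencies.** -/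
theorem integral_wave_mul_exp {ι : Type*} {T : Finset ι} {b : ι → ℂ} {d : ι → ℤ}
    (hT : ∀ k ∈ T, d k ≤ 0) {m : ℤ} (hm : m < 0) :
    ∫ t in (0 : ℝ)..1, wave m t * Complex.exp (∑ k ∈ T, b k * wave (d k) t) = 0 := by
  obtain ⟨B, hB⟩ : ∃ B, B = ∑ k ∈ T, ‖b k‖ := ⟨_, rfl⟩
  have hG : ∀ t, ‖∑ k ∈ T, b k * wave (d k) t‖ ≤ B := fun t => hB ▸ (norm_sum_le _ _).trans
    (le_of_eq (sum_congr rfl fun k _ => by rw [norm_mul, norm_wave, mul_one]))
  have h := intervalIntegral.hasSum_integral_of_dominated_convergence (μ := volume) (a := (0 : ℝ))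
    (b := 1) (F := fun r t => wave m t * ((∑ k ∈ T, b k * wave (d k) t) ^ r / r.factorial))
    (f := fun t => wave m t * Complex.exp (∑ k ∈ T, b k * wave (d k) t))
    (fun r _ => B ^ r / r.factorial)
    (fun r => (Continuous.aestronglyMeasurable (by fun_prop)))
    (fun r => Filter.Eventually.of_forall fun t _ => by
      rw [norm_mul, norm_wave, one_mul, norm_div, norm_pow, Complex.norm_natCast]
      exact div_le_div_of_nonneg_right (pow_le_pow_left₀ (norm_nonneg _) (hG t) r) (by positivity))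
    (Filter.Eventually.of_forall fun t _ => Real.summable_pow_div_factorial B)
    intervalIntegrable_const
    (Filter.Eventually.of_forall fun t _ => by
      rw [Complex.exp_eq_exp_ℂ]
      exact (NormedSpace.expSeries_div_hasSum_exp (∑ k ∈ T, b k * wave (d k) t)).mul_left
        (wave m t))
  refine h.unique ?_
  convert hasSum_zero with r
  simp only [← mul_div_assoc]
  rw [intervalIntegral.integral_div, integral_wave_mul_pow hT r m hm, zero_div]

/-- `|exp z - 1| ≤ |z|` on the left half-plane. -/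
theorem norm_exp_sub_one_le_norm {z : ℂ} (hz : z.re ≤ 0) : ‖Complex.exp z - 1‖ ≤ ‖z‖ := by
  have h := Convex.norm_image_sub_le_of_norm_deriv_le (f := Complex.exp) (C := 1)
    (fun w _ => Complex.differentiableAt_exp)
    (fun w (hw : w ∈ {w : ℂ | w.re ≤ 0}) => by
      rw [Complex.deriv_exp, Complex.norm_exp]
      exact Real.exp_le_one_iff.2 hw)
    (convex_halfSpace_re_le 0) (show (0 : ℂ) ∈ {w : ℂ | w.re ≤ 0} by simp) hz
  simpa using h

end FA.LittlewoodNorm
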