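import Fermat.Agent.LittlewoodNorm.Analytic
import Mathlib.Data.Nat.Log
import Mathlib.Algebra.Order.Field.GeomSum

/-!
# The test function of McGehee, Pigno and Smith

For frequencies `n 0 < n 1 < ⋯` and coefficients `a`, cut into 4-adic blocks, a function bounded by
`25` whose coefficient at `n k` pairs with `a k` to at least `|a k| / (6 (k + 1))`.
-/

set_option autoImplicit false

noncomputable section

namespace FA.LittlewoodNorm

open MeasureTheory Finset Complex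
open scoped Real ComplexConjugate

/-- The indices `k < N` with `4 ^ j ≤ k + 1 < 4 ^ (j + 1)`. -/
def block (N j : ℕ) : Finset ℕ := (range N).filter fun k => Nat.log 4 (k + 1) = j

theorem mem_block {N j k : ℕ} : k ∈ block N j ↔ k < N ∧ Nat.log 4 (k + 1) = j := by
  simp [block]

theorem card_block_le (N j : ℕ) : (block N j).card ≤ 3 * 4 ^ j := by
  refine (card_le_card (t := Ico (4 ^ j - 1) (4 ^ (j + 1) - 1)) fun k hk => ?_).trans ?_
  · obtain ⟨-, rfl⟩ := mem_block.1 hk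
    have h1 := Nat.pow_log_le_self 4 (show k + 1 ≠ 0 by omega)
    have h2 := Nat.lt_pow_succ_log_self (show 1 < 4 by norm_num) (k + 1)
    rw [mem_Ico]
    omega
  · rw [Nat.card_Ico, pow_succ]
    omega

/-- The normalised piece of the block `j`. -/
def piece (N : ℕ) (a : ℕ → ℂ) (n : ℕ → ℤ) (j : ℕ) (t : ℝ) : ℂ :=
  ∑ k ∈ block N j, a k / (‖a k‖ : ℂ) / (3 * 4 ^ j) * wave (n k) t

theorem norm_coeff_le (a : ℕ → ℂ) (j k : ℕ) :
    ‖a k / (‖a k‖ : ℂ) / (3 * 4 ^ j)‖ ≤ 1 / (3 * 4 ^ j) := by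
  rw [norm_div, norm_div, Complex.norm_real, norm_norm, norm_mul, norm_pow, RCLike.norm_ofNat,
    RCLike.norm_ofNat]
  exact div_le_div_of_nonneg_right (div_self_le_one _) (by positivity)

theorem norm_piece_le (N : ℕ) (a : ℕ → ℂ) (n : ℕ → ℤ) (j : ℕ) (t : ℝ) :
    ‖piece N a n j t‖ ≤ 1 := by
  refine (norm_sum_le _ _).trans ((sum_le_card_nsmul _ _ (1 / (3 * 4 ^ j : ℝ)) fun k _ => ?_).trans
    ?_)
  · rw [norm_mul, norm_wave, mul_one]
    exact norm_coeff_le a j k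
  · rw [nsmul_eq_mul, ← mul_div_assoc, mul_one, div_le_one (by positivity)]
    exact_mod_cast card_block_le N j

theorem integral_piece_sq_le {N : ℕ} (a : ℕ → ℂ) {n : ℕ → ℤ} (hn : Set.InjOn n (range N))
    (j : ℕ) : ∫ t in (0 : ℝ)..1, ‖piece N a n j t‖ ^ 2 ≤ (1 / 4 : ℝ) ^ j / 3 := by
  simp only [piece]
  rw [integral_norm_sq_poly _ _ n (hn.mono fun k hk => mem_range.2 (mem_block.1 hk).1)]
  refine (sum_le_card_nsmul _ _ ((1 / (3 * 4 ^ j : ℝ)) ^ 2) fun k _ =>
    pow_le_pow_left₀ (norm_nonneg _) (norm_coeff_le a j k) 2).trans ?_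
  rw [nsmul_eq_mul]
  refine (mul_le_mul_of_nonneg_right (show ((block N j).card : ℝ) ≤ 3 * 4 ^ j by
    exact_mod_cast card_block_le N j) (by positivity)).trans (le_of_eq ?_)
  rw [one_div_pow]
  field_simp
  rw [← mul_pow]
  norm_num

/-- Majorants of all the pieces. -/
theorem exists_majorants {N : ℕ} (a : ℕ → ℂ) {n : ℕ → ℤ} (hn : Set.InjOn n (range N)) :
    ∃ (T : ℕ → Finset ℤ) (b : ℕ → ℤ → ℂ), ∀ j, (∀ k ∈ T j, k ≤ 0) ∧
      (∀ t, ‖piece N a n j t‖ ≤ (∑ k ∈ T j, b j k * wave k t).re) ∧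
      ∫ t in (0 : ℝ)..1, ‖∑ k ∈ T j, b j k * wave k t‖ ^ 2 ≤ 4 * (1 / 4 : ℝ) ^ j := by
  have h : ∀ j, ∃ (T : Finset ℤ) (b : ℤ → ℂ), (∀ k ∈ T, k ≤ 0) ∧
      (∀ t, ‖piece N a n j t‖ ≤ (∑ k ∈ T, b k * wave k t).re) ∧
      ∫ t in (0 : ℝ)..1, ‖∑ k ∈ T, b k * wave k t‖ ^ 2 ≤ 4 * (1 / 4 : ℝ) ^ j := fun j => by
    obtain ⟨T, b, h0, h1, h2⟩ := exists_majorant (block N j)
      (fun k => a k / (‖a k‖ : ℂ) / (3 * 4 ^ j)) n
      (show (0 : ℝ) < (1 / 2 : ℝ) ^ j / 4 by positivity)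
    refine ⟨T, b, h0, h1, h2.trans ?_⟩
    have h := integral_piece_sq_le a hn j
    simp only [piece] at h
    rw [div_pow ((1 / 2 : ℝ) ^ j) 4, ← pow_mul, mul_comm j 2, pow_mul]
    norm_num
    norm_num at h
    linarith [show (0 : ℝ) ≤ (1 / 4 : ℝ) ^ j by positivity]
  choose T b hTb using h
  exact ⟨T, b, hTb⟩

theorem norm_coef_le {F : ℝ → ℂ} (k : ℤ) : ‖coef F k‖ ≤ ∫ t in (0 : ℝ)..1, ‖F t‖ := by
  refine (intervalIntegral.norm_integral_le_integral_norm zero_le_one).trans (le_of_eq ?_)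
  exact intervalIntegral.integral_congr fun t _ => by simp [norm_wave]

/-- **The test function.** -/
theorem exists_test (N : ℕ) (a : ℕ → ℂ) (n : ℕ → ℤ) (hn : StrictMonoOn n (range N)) :
    ∃ F : ℝ → ℂ, Continuous F ∧ (∀ t, ‖F t‖ ≤ 25) ∧
      ∀ k < N, ‖a k‖ / (6 * (k + 1)) ≤ (a k * conj (coef F (n k))).re := by
  obtain ⟨T, b, hg⟩ := exists_majorants a hn.injOn
  obtain ⟨g, hgdef⟩ : ∃ g : ℕ → ℝ → ℂ, g = fun l t => ∑ k ∈ T l, b l k * wave k t := ⟨_, rfl⟩
  obtain ⟨f, hfdef⟩ : ∃ f : ℕ → ℝ → ℂ, f = piece N a n := ⟨_, rfl⟩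
  obtain ⟨E, hE⟩ : ∃ E : ℕ → ℕ → ℝ → ℂ,
      E = fun i J t => Complex.exp (-(1 / 24 : ℂ) * ∑ l ∈ Ioc i J, g l t) := ⟨_, rfl⟩
  have hfc : ∀ i, Continuous (f i) := fun i => by rw [hfdef]; unfold piece; fun_prop
  have hgc : ∀ l, Continuous (g l) := fun l => by rw [hgdef]; fun_prop
  have hEc : ∀ i J, Continuous (E i J) := fun i J => by rw [hE]; fun_prop
  have hf1 : ∀ i t, ‖f i t‖ ≤ 1 := fun i t => hfdef ▸ norm_piece_le N a n i t
  have hfg : ∀ l t, ‖f l t‖ ≤ (g l t).re := fun l t => by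
    rw [hfdef, hgdef]
    exact (hg l).2.1 t
  have hsup : ∀ J t, ‖∑ i ∈ range (J + 1), f i t * E i J t‖ ≤ 25 := fun J => by
    induction J with
    | zero =>
      intro t
      simp [hE]
      linarith [hf1 0 t]
    | succ J ih =>
      intro t
      rw [sum_range_succ]
      have hlast : E (J + 1) (J + 1) t = 1 := by simp [hE]
      have hstep : ∀ i ∈ range (J + 1), f i t * E i (J + 1) t =
          f i t * E i J t * Complex.exp (-(1 / 24 : ℂ) * g (J + 1) t) := fun i hi => by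
        rw [mul_assoc, hE]
        dsimp only
        rw [← Complex.exp_add, ← mul_add, sum_Ioc_succ_top (by have := mem_range.1 hi; omega)]
      rw [hlast, mul_one, sum_congr rfl hstep, ← sum_mul]
      have hexp : ‖Complex.exp (-(1 / 24 : ℂ) * g (J + 1) t)‖ ≤ 1 / (1 + ‖f (J + 1) t‖ / 24) := by
        rw [Complex.norm_exp]
        have hre : (-(1 / 24 : ℂ) * g (J + 1) t).re = -((g (J + 1) t).re / 24) := by
          simp [Complex.mul_re]
          ring
        rw [hre, Real.exp_neg, one_div]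
        refine inv_anti₀ (by positivity) (le_trans ?_ (Real.add_one_le_exp _))
        linarith [hfg (J + 1) t]
      refine (norm_add_le _ _).trans ?_
      rw [norm_mul]
      refine (add_le_add (mul_le_mul (ih t) hexp (norm_nonneg _) (by norm_num)) le_rfl).trans ?_
      have hx := hf1 (J + 1) t
      have hx0 := norm_nonneg (f (J + 1) t)
      rw [← le_sub_iff_add_le, mul_one_div, div_le_iff₀ (by positivity)]
      nlinarith
  obtain ⟨J, hJ⟩ : ∃ J, J = Nat.log 4 N := ⟨_, rfl⟩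
  refine ⟨fun t => ∑ i ∈ range (J + 1), f i t * E i J t, by fun_prop, hsup J, fun k hk => ?_⟩
  obtain ⟨j, hj⟩ : ∃ j, j = Nat.log 4 (k + 1) := ⟨_, rfl⟩
  have hjJ : j ≤ J := hj ▸ hJ ▸ Nat.log_mono_right hk
  -- the earlier blocks do not reach `n k`
  have hlow : ∀ i < j, coef (fun t => f i t * E i J t) (n k) = 0 := fun i hi => by
    rw [hfdef, hE]
    simp only [piece, sum_mul]
    rw [coef_sum _ _ fun m _ => by fun_prop]
    refine sum_eq_zero fun m hm => ?_
    obtain ⟨hmN, hmi⟩ := mem_block.1 hm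
    have hmk : m < k := by
      by_contra hle
      have := Nat.log_mono_right (b := 4) (show k + 1 ≤ m + 1 by omega)
      omega
    simp only [coef, hgdef, mul_sum]
    rw [show (fun t : ℝ => a m / (‖a m‖ : ℂ) / (3 * 4 ^ i) * wave (n m) t *
        Complex.exp (∑ l ∈ Ioc i J, ∑ q ∈ T l, -(1 / 24 : ℂ) * (b l q * wave q t)) *
          wave (-n k) t) = fun t : ℝ => a m / (‖a m‖ : ℂ) / (3 * 4 ^ i) *
        (wave (n m - n k) t * Complex.exp (∑ z ∈ (Ioc i J).sigma T,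
          -(1 / 24 : ℂ) * b z.1 z.2 * wave z.2 t)) from funext fun t => by
      rw [sum_sigma, sub_eq_add_neg, ← wave_mul]
      simp only [mul_assoc]
      ring]
    rw [intervalIntegral.integral_const_mul,
      integral_wave_mul_exp (fun z hz => (hg z.1).1 z.2 (mem_sigma.1 hz).2)
        (sub_neg.2 (hn (mem_coe.2 (mem_range.2 hmN)) (mem_coe.2 (mem_range.2 hk)) hmk)), mul_zero]
  -- the main term
  have hmain : ∀ i, coef (f i) (n k) = if i = j then a k / (‖a k‖ : ℂ) / (3 * 4 ^ j) else 0 := by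
    intro i
    rw [hfdef]
    unfold piece
    rw [coef_poly]
    split_ifs with h
    · subst h
      refine sum_eq_single_of_mem k (mem_filter.2 ⟨mem_block.2 ⟨hk, hj.symm⟩, rfl⟩)
        fun m hm hmk => absurd ?_ hmk
      exact hn.injOn (mem_range.2 (mem_block.1 (mem_filter.1 hm).1).1) (mem_range.2 hk)
        (mem_filter.1 hm).2
    · refine sum_eq_zero fun m hm => absurd ?_ h
      obtain ⟨hm1, hm2⟩ := mem_filter.1 hm
      have := hn.injOn (mem_range.2 (mem_block.1 hm1).1) (mem_range.2 hk) hm2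
      rw [← (mem_block.1 hm1).2, hj, this]
  -- the error
  have herr : ∀ i, ‖coef (fun t => f i t * (E i J t - 1)) (n k)‖ ≤
      5 / 48 * (1 / 4 : ℝ) ^ i := fun i => by
    refine (norm_coef_le _).trans ?_
    have hle : ∀ t, ‖f i t * (E i J t - 1)‖ ≤ ∑ l ∈ Ioc i J,
        ((1 / 2 : ℝ) ^ l / (1 / 2) ^ i * ‖f i t‖ ^ 2 / 48 +
          (1 / 2 : ℝ) ^ i / (1 / 2) ^ l * ‖g l t‖ ^ 2 / 48) := fun t => by
      have hre : (-(1 / 24 : ℂ) * ∑ l ∈ Ioc i J, g l t).re ≤ 0 := by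
        simp only [mul_sum, Complex.re_sum]
        refine sum_nonpos fun l _ => ?_
        simp [Complex.mul_re]
        linarith [(norm_nonneg (f l t)).trans (hfg l t)]
      rw [norm_mul, hE]
      refine (mul_le_mul_of_nonneg_left (norm_exp_sub_one_le_norm hre) (norm_nonneg _)).trans ?_
      rw [norm_mul]
      refine (mul_le_mul_of_nonneg_left (mul_le_mul_of_nonneg_left (norm_sum_le _ _)
        (norm_nonneg _)) (norm_nonneg _)).trans ?_
      rw [mul_sum, mul_sum]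
      refine sum_le_sum fun l _ => ?_
      obtain ⟨u, hu⟩ : ∃ u, u = (1 / 2 : ℝ) ^ l / (1 / 2) ^ i := ⟨_, rfl⟩
      have hu0 : 0 < u := by rw [hu]; positivity
      rw [← hu, show (1 / 2 : ℝ) ^ i / (1 / 2) ^ l = 1 / u by rw [hu, one_div_div],
        show ‖-(1 / 24 : ℂ)‖ = 1 / 24 by norm_num]
      have hsq := div_nonneg (sq_nonneg (u * ‖f i t‖ - ‖g l t‖)) hu0.le
      rw [show (u * ‖f i t‖ - ‖g l t‖) ^ 2 / u =
        u * ‖f i t‖ ^ 2 + 1 / u * ‖g l t‖ ^ 2 - 2 * (‖f i t‖ * ‖g l t‖) by field_simp; ring] at hsq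
      linarith
    refine (intervalIntegral.integral_mono zero_le_one
      (Continuous.intervalIntegrable (by fun_prop) _ _)
      (Continuous.intervalIntegrable (by fun_prop) _ _) hle).trans ?_
    rw [intervalIntegral.integral_finsetSum fun l _ =>
      Continuous.intervalIntegrable (by fun_prop) _ _]
    refine (sum_le_sum (g := fun l => 5 / 48 * (1 / 2 : ℝ) ^ i * (1 / 2) ^ l)
      fun l _ => ?_).trans ?_
    · rw [intervalIntegral.integral_add (Continuous.intervalIntegrable (by fun_prop) _ _)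
        (Continuous.intervalIntegrable (by fun_prop) _ _)]
      simp only [intervalIntegral.integral_div, intervalIntegral.integral_const_mul]
      have hf2 := hfdef ▸ integral_piece_sq_le a hn.injOn i
      have hg2 := (hg l).2.2
      rw [show (1 / 4 : ℝ) = 1 / 2 * (1 / 2) by norm_num, mul_pow] at hf2 hg2
      have e1 := mul_le_mul_of_nonneg_left hf2
        (show (0 : ℝ) ≤ (1 / 2 : ℝ) ^ l / (1 / 2) ^ i by positivity)
      have e2 := mul_le_mul_of_nonneg_left hg2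
        (show (0 : ℝ) ≤ (1 / 2 : ℝ) ^ i / (1 / 2) ^ l by positivity)
      rw [show (1 / 2 : ℝ) ^ l / (1 / 2) ^ i * ((1 / 2) ^ i * (1 / 2) ^ i / 3) =
        (1 / 2) ^ i * (1 / 2) ^ l / 3 by field_simp] at e1
      rw [show (1 / 2 : ℝ) ^ i / (1 / 2) ^ l * (4 * ((1 / 2) ^ l * (1 / 2) ^ l)) =
        4 * ((1 / 2) ^ i * (1 / 2) ^ l) by field_simp] at e2
      rw [hgdef]
      linarith [show (0 : ℝ) ≤ (1 / 2 : ℝ) ^ i * (1 / 2) ^ l by positivity]
    · rw [← mul_sum, show Ioc i J = Ico (i + 1) (J + 1) from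
        (Ico_add_one_add_one_eq_Ioc i J).symm,
        show (1 / 4 : ℝ) ^ i = (1 / 2) ^ i * (1 / 2) ^ i by rw [← mul_pow]; norm_num, mul_assoc]
      refine mul_le_mul_of_nonneg_left (mul_le_mul_of_nonneg_left ?_ (by positivity)) (by norm_num)
      refine (geom_sum_Ico_le_of_lt_one (by norm_num) (by norm_num)).trans (le_of_eq ?_)
      rw [pow_succ]
      ring
  have hsplit : ∀ i, coef (fun t => f i t * E i J t) (n k) =
      coef (f i) (n k) + coef (fun t => f i t * (E i J t - 1)) (n k) := fun i => by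
    simp only [coef]
    rw [← intervalIntegral.integral_add (Continuous.intervalIntegrable (by fun_prop) _ _)
      (Continuous.intervalIntegrable (by fun_prop) _ _)]
    exact intervalIntegral.integral_congr fun t _ => by ring
  rw [coef_sum _ _ fun i _ => by fun_prop]
  rw [← sum_range_add_sum_Ico _ (show j ≤ J + 1 by omega),
    sum_eq_zero fun i hi => hlow i (mem_range.1 hi), zero_add, sum_congr rfl fun i _ => hsplit i,
    sum_add_distrib, sum_congr rfl fun i _ => hmain i, sum_ite_eq' (Ico j (J + 1)) j,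
    if_pos (mem_Ico.2 ⟨le_rfl, by omega⟩)]
  obtain ⟨e, he⟩ : ∃ e, e = ∑ i ∈ Ico j (J + 1), coef (fun t => f i t * (E i J t - 1)) (n k) :=
    ⟨_, rfl⟩
  rw [← he]
  have hee : ‖e‖ ≤ 5 / 36 * (1 / 4 : ℝ) ^ j := by
    rw [he]
    refine (norm_sum_le _ _).trans ((sum_le_sum fun i _ => herr i).trans ?_)
    rw [← mul_sum]
    refine (mul_le_mul_of_nonneg_left (geom_sum_Ico_le_of_lt_one (by norm_num) (by norm_num))
      (by norm_num)).trans (le_of_eq ?_)
    ring
  rw [map_add, mul_add (a k), Complex.add_re]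
  have h1 : (a k * conj (a k / (‖a k‖ : ℂ) / (3 * 4 ^ j))).re = ‖a k‖ / (3 * 4 ^ j) := by
    rcases eq_or_ne (a k) 0 with h | h
    · simp [h]
    rw [map_div₀, map_div₀, Complex.conj_ofReal, mul_div_assoc', mul_div_assoc', Complex.mul_conj',
      sq, mul_div_cancel_right₀ _ (Complex.ofReal_ne_zero.2 (norm_ne_zero_iff.2 h)),
      show (3 : ℂ) * 4 ^ j = ((3 * 4 ^ j : ℝ) : ℂ) by push_cast; ring, Complex.conj_ofReal,
      ← Complex.ofReal_div, Complex.ofReal_re]
  have h2 : -(‖a k‖ * ‖e‖) ≤ (a k * conj e).re := by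
    have := abs_le.1 (Complex.abs_re_le_norm (a k * conj e))
    rw [norm_mul, Complex.norm_conj] at this
    exact this.1
  have h3 : ‖a k‖ / (6 * (k + 1)) ≤ ‖a k‖ / (6 * 4 ^ j) := by
    refine div_le_div_of_nonneg_left (norm_nonneg _) (by positivity) ?_
    have := Nat.pow_log_le_self 4 (show k + 1 ≠ 0 by omega)
    have : (4 : ℝ) ^ j ≤ (k : ℝ) + 1 := by exact_mod_cast hj ▸ this
    linarith
  rw [h1]
  have h4 := mul_le_mul_of_nonneg_left hee (norm_nonneg (a k))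
  rw [div_pow, one_pow] at h4
  have h5 : 0 ≤ ‖a k‖ / 4 ^ j := by positivity
  rw [show ‖a k‖ / (3 * 4 ^ j) = ‖a k‖ / 4 ^ j / 3 by ring]
  rw [show ‖a k‖ / (6 * 4 ^ j) = ‖a k‖ / 4 ^ j / 6 by ring] at h3
  rw [show ‖a k‖ * (5 / 36 * (1 / 4 ^ j)) = ‖a k‖ / 4 ^ j * (5 / 36) by ring] at h4
  linarith

end FA.LittlewoodNorm
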