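import Fermat.Agent.LittlewoodNorm.Dual
import Mathlib.NumberTheory.Harmonic.Bounds
import Mathlib.Data.Finset.Sort

/-!
# The theorem of McGehee, Pigno and Smith

`∑ |a k| / (k + 1) ≤ 150 ∫ |∑ a k e (n k t)|` for frequencies `n 0 < n 1 < ⋯`; so the `L¹` norm of
an exponential sum over `N` integers is at least `log N / 150` (Littlewood's conjecture).
-/

set_option autoImplicit false

noncomputable section

namespace FA.LittlewoodNorm

open MeasureTheory Finset Complex
open scoped Real ComplexConjugate

theorem wave_eq (k : ℤ) (t : ℝ) : wave k t = Complex.exp (2 * π * I * k * t) := by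
  rw [wave]
  push_cast
  ring_nf

/-- **McGehee, Pigno and Smith.** -/
theorem sum_div_le_integral (N : ℕ) (a : ℕ → ℂ) (n : ℕ → ℤ) (hn : StrictMonoOn n (range N)) :
    ∑ k ∈ range N, ‖a k‖ / (k + 1) ≤
      150 * ∫ t in (0 : ℝ)..1, ‖∑ k ∈ range N, a k * wave (n k) t‖ := by
  obtain ⟨F, hFc, hF, hpair⟩ := exists_test N a n hn
  obtain ⟨S, hS⟩ : ∃ S : ℝ → ℂ, S = fun t => ∑ k ∈ range N, a k * wave (n k) t := ⟨_, rfl⟩
  have hSc : Continuous S := hS ▸ by fun_prop
  have e : ∫ t in (0 : ℝ)..1, S t * conj (F t) = ∑ k ∈ range N, a k * conj (coef F (n k)) := by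
    simp only [hS, sum_mul]
    rw [intervalIntegral.integral_finsetSum fun k _ =>
      Continuous.intervalIntegrable (by fun_prop) _ _]
    refine sum_congr rfl fun k _ => ?_
    simp only [mul_assoc, intervalIntegral.integral_const_mul]
    rw [coef, intervalIntegral.integral_of_le zero_le_one, intervalIntegral.integral_of_le
      zero_le_one, ← integral_conj]
    congr 1
    refine integral_congr_ae (Filter.Eventually.of_forall fun t => ?_)
    dsimp only
    rw [map_mul, conj_wave, neg_neg, mul_comm]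
  have h2 : ‖∫ t in (0 : ℝ)..1, S t * conj (F t)‖ ≤ 25 * ∫ t in (0 : ℝ)..1, ‖S t‖ := by
    refine (intervalIntegral.norm_integral_le_integral_norm zero_le_one).trans ?_
    rw [← intervalIntegral.integral_const_mul]
    refine intervalIntegral.integral_mono zero_le_one
      (Continuous.intervalIntegrable (by fun_prop) _ _)
      (Continuous.intervalIntegrable (by fun_prop) _ _) fun t => ?_
    rw [norm_mul, Complex.norm_conj, mul_comm]
    exact mul_le_mul_of_nonneg_right (hF t) (norm_nonneg _)
  have h1 := (sum_le_sum fun k hk => hpair k (mem_range.1 hk)).trans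
    (le_of_eq (Complex.re_sum (range N) fun k => a k * conj (coef F (n k))).symm)
  rw [← e] at h1
  have h3 := h1.trans ((Complex.re_le_norm _).trans h2)
  simp only [mul_comm (6 : ℝ), ← div_div, ← sum_div] at h3
  simp only [hS] at h3
  linarith

/-- **Littlewood's conjecture.** -/
theorem log_card_le_integral (A : Finset ℤ) :
    Real.log A.card ≤ 150 * ∫ t in (0 : ℝ)..1, ‖∑ a ∈ A, wave a t‖ := by
  obtain ⟨n, hn⟩ : ∃ n : ℕ → ℤ,
      n = fun k => if h : k < A.card then A.orderEmbOfFin rfl ⟨k, h⟩ else 0 := ⟨_, rfl⟩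
  have hmono : StrictMonoOn n (range A.card) := fun i hi j hj hij => by
    rw [mem_coe, mem_range] at hi hj
    rw [hn]
    dsimp only
    rw [dif_pos hi, dif_pos hj]
    exact (A.orderEmbOfFin rfl).strictMono hij
  have e : ∀ t, ∑ k ∈ range A.card, (1 : ℕ → ℂ) k * wave (n k) t = ∑ a ∈ A, wave a t := fun t => by
    rw [← Fin.sum_univ_eq_sum_range fun k => (1 : ℕ → ℂ) k * wave (n k) t]
    conv_rhs => rw [← A.map_orderEmbOfFin_univ rfl, sum_map]
    refine sum_congr rfl fun i _ => ?_
    rw [hn]
    simp
  have h := sum_div_le_integral A.card 1 n hmono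
  simp only [e] at h
  refine le_trans ?_ h
  rcases Nat.eq_zero_or_pos A.card with h0 | h0
  · simp [h0]
  refine (Real.log_le_log (Nat.cast_pos.2 h0) (Nat.cast_le.2 (Nat.le_succ _))).trans
    ((log_add_one_le_harmonic _).trans (le_of_eq ?_))
  rw [harmonic]
  push_cast
  exact sum_congr rfl fun k _ => by simp [one_div]

end FA.LittlewoodNorm
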